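import Fermat.Statements.S45
import Fermat.Prelude.Def_FreyPackage_IsConductorLevel

set_option autoImplicit false
open WeierstrassCurve WeierstrassCurve.Affine WeierstrassCurve.Affine.Point
open CuspForm ModularFormClass UpperHalfPlane
open FreyPackage

namespace Fermat.Agent.S45

/-- Descent on the conductor level: strip every odd prime from the level. -/
theorem descend_level (P : FreyPackage)
    (hirr : GaloisRepIsIrreducible (K := AlgebraicClosure ℚ) ℚ P.freyCurve P.p)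
    (h05 : ∀ {q : ℕ}, q.Prime → q ≠ 2 → q ≠ P.p → P.GaloisRepUnramifiedAt q)
    (h43 : ∀ {N q : ℕ}, P.IsConductorLevel N → q.Prime → q ≠ 2 → q ≠ P.p → q ∣ N →
      GaloisRepIsIrreducible (K := AlgebraicClosure ℚ) ℚ P.freyCurve P.p →
      P.ModularRepOfLevel N → P.GaloisRepUnramifiedAt q →
      ∃ M : ℕ, M ∣ N ∧ ¬ q ∣ M ∧ P.ModularRepOfLevel M)
    (h44 : ∀ {N : ℕ}, P.IsConductorLevel N → P.p ∣ N →
      GaloisRepIsIrreducible (K := AlgebraicClosure ℚ) ℚ P.freyCurve P.p →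
      P.ModularRepOfLevel N →
      ∃ M : ℕ, M ∣ N ∧ ¬ P.p ∣ M ∧ P.ModularRepOfLevel M) :
    ∀ N : ℕ, P.IsConductorLevel N → P.ModularRepOfLevel N →
      ∃ M : ℕ, M ∣ 2 ∧ 0 < M ∧ P.ModularRepOfLevel M := by
  intro N
  induction N using Nat.strong_induction_on with
  | _ N ih =>
    intro hcond hmod
    by_cases hodd : ∃ q : ℕ, q.Prime ∧ q ≠ 2 ∧ q ∣ N
    · obtain ⟨q, hq, hq2, hqN⟩ := hodd
      have key : ∃ M : ℕ, M ∣ N ∧ ¬ q ∣ M ∧ P.ModularRepOfLevel M := by
        by_cases hqp : q = P.p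
        · subst hqp
          exact h44 hcond hqN hirr hmod
        · exact h43 hcond hq hq2 hqp hqN hirr hmod (h05 hq hq2 hqp)
      obtain ⟨M, hMN, hqM, hmodM⟩ := key
      have hMpos : 0 < M := Nat.pos_of_dvd_of_pos hMN hcond.pos
      have hMne : M ≠ N := fun h => hqM (h ▸ hqN)
      have hMlt : M < N := lt_of_le_of_ne (Nat.le_of_dvd hcond.pos hMN) hMne
      exact ih M hMlt (hcond.of_dvd hMN hMpos) hmodM
    · refine ⟨N, ?_, hcond.pos, hmod⟩
      have hpf : ∀ q : ℕ, q.Prime → q ∣ N → q = 2 := by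
        intro q hq hqN
        by_contra hne
        exact hodd ⟨q, hq, hne, hqN⟩
      have hsq := hcond.squarefree
      have hN0 : N ≠ 0 := hcond.pos.ne'
      obtain ⟨e, m, hm2, hNem⟩ := Nat.exists_eq_pow_mul_and_not_dvd hN0 2 (by norm_num)
      have hm1 : m = 1 := by
        by_contra hm
        obtain ⟨q, hq, hqm⟩ := Nat.exists_prime_and_dvd hm
        have : q = 2 := hpf q hq (hNem ▸ Dvd.dvd.mul_left hqm _)
        exact hm2 (this ▸ hqm)
      subst hm1
      rw [mul_one] at hNem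
      have he : e ≤ 1 := by
        by_contra hlt
        replace hlt : 2 ≤ e := by omega
        have : 2 * 2 ∣ N := by
          rw [hNem]
          calc 2 * 2 = 2 ^ 2 := by norm_num
            _ ∣ 2 ^ e := pow_dvd_pow 2 hlt
        exact Nat.prime_two.one_lt.ne' (Nat.isUnit_iff.mp (hsq 2 this))
      rw [hNem]
      calc 2 ^ e ∣ 2 ^ 1 := pow_dvd_pow 2 he
        _ = 2 := by norm_num

/-- Conditional form of the statement, from the Frey-form statements it depends on. -/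
theorem wiring (P : FreyPackage)
    (hirr : GaloisRepIsIrreducible (K := AlgebraicClosure ℚ) ℚ P.freyCurve P.p)
    (h05 : ∀ {q : ℕ}, q.Prime → q ≠ 2 → q ≠ P.p → P.GaloisRepUnramifiedAt q)
    (h06 : ∃ N : ℕ, P.IsConductorLevel N ∧ P.ModularRepOfLevel N)
    (h08 : ∀ f : CuspForm (CongruenceSubgroup.Gamma0 1) 2, f = 0)
    (h43 : ∀ {N q : ℕ}, P.IsConductorLevel N → q.Prime → q ≠ 2 → q ≠ P.p → q ∣ N →
      GaloisRepIsIrreducible (K := AlgebraicClosure ℚ) ℚ P.freyCurve P.p →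
      P.ModularRepOfLevel N → P.GaloisRepUnramifiedAt q →
      ∃ M : ℕ, M ∣ N ∧ ¬ q ∣ M ∧ P.ModularRepOfLevel M)
    (h44 : ∀ {N : ℕ}, P.IsConductorLevel N → P.p ∣ N →
      GaloisRepIsIrreducible (K := AlgebraicClosure ℚ) ℚ P.freyCurve P.p →
      P.ModularRepOfLevel N →
      ∃ M : ℕ, M ∣ N ∧ ¬ P.p ∣ M ∧ P.ModularRepOfLevel M) :
    ∃ f : CuspForm (CongruenceSubgroup.Gamma0 2) 2, f ≠ 0 := by
  obtain ⟨N, hcond, hmod⟩ := h06
  obtain ⟨M, hM2, hMpos, hmodM⟩ := descend_level P hirr h05 h43 h44 N hcond hmod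
  have hM : M = 1 ∨ M = 2 := (Nat.dvd_prime Nat.prime_two).mp hM2
  rcases hM with rfl | rfl
  · obtain ⟨f, _, _, hf, _⟩ := hmodM
    exact absurd (h08 f) hf.ne_zero
  · obtain ⟨f, _, _, hf, _⟩ := hmodM
    exact ⟨f, hf.ne_zero⟩

end Fermat.Agent.S45
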